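/-
S17lib / RedLin / KeyEquiv  (helper3) — Project G (S17), block RED, the geometric KEY EQUIVALENCE.

Setting: `hF : IsCurveOfGenus K F g`, a base place `inf`, points `P : Fin n → Place K F` (with
repetition, all `≠ inf`), `D = ∑ i, single (P i) 1`; a finite family `a : ι → F` spanning
`L(N₁·inf)` with `2g + 1 ≤ N₁`; `α i j ∈ K` the value of `a j` at `P i`;
`gk a α k = ∏ i, (a (k i) - α i (k i))` for `k : Fin n → ι`; `u ≠ 0` with `D Q ≤ ord_Q u` off `inf`.

* `exists_index_ord_eq` : for `Q ≠ inf` some `a j - a j (P)` has order exactly `[Q = P]` at `Q`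
  (the family separates points and tangents);
* `exists_gk_ord_eq`    : for `Q ≠ inf` some `gk k ≠ 0` has `ord_Q = D Q` exactly;
* **`key_equiv`** : `φ ∈ L(D - e·inf) ↔ u φ ∈ L((m_u - e)·inf) ∧ ∀ k, φ · gk k ∈ L((n N₁ - e)·inf)`,
  `m_u = - ord_inf u`: the solutions `(F₁, G_k) = (u φ, φ gk)` of the linear system
  `F₁ gk = u G_k` in the FIXED spaces `L(M·inf)` are exactly `L(D - e·inf)`;
* `line_of_linEquiv` : if `div f₀ = D' - D + e·inf` and `L(D') = K` then `L(D - e·inf) = K f₀`,
  and `u f₀` vanishes on `D'` off `inf`.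
-/
import Mathlib
import Fermat.Prelude.Def_AlgebraicCurve_DivisorClassGroup
import Fermat.Prelude.Def_AlgebraicCurve_Repartitions
import Fermat.Agent.S18lib.Setup.CurveRR
import Fermat.Agent.S18lib.Setup.DivLemmas
import Fermat.Agent.S18lib.Cech.CurveBasics
import Fermat.Agent.S37lib.Red.Curve

set_option autoImplicit false
set_option linter.unusedSectionVars false

noncomputable section

namespace Fermat.Agent.S17lib.RedLin

open AlgebraicCurve Fermat.Agent.S18lib

variable {K F : Type*} [Field K] [Field F] [Algebra K F]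

/-! ### orders of finite sums and products -/

theorem ord_sum_ge (v : Place K F) {ι : Type*} (s : Finset ι) (f : ι → F) {n : ℤ}
    (h : ∀ j ∈ s, f j = 0 ∨ n ≤ v.ord (f j)) : ∑ j ∈ s, f j = 0 ∨ n ≤ v.ord (∑ j ∈ s, f j) := by
  classical
  induction s using Finset.induction with
  | empty => left; simp
  | insert a s ha ih =>
    rw [Finset.sum_insert ha]
    exact Cech.ord_add_ge v (h a (Finset.mem_insert_self a s))
      (ih fun j hj => h j (Finset.mem_insert_of_mem hj))

theorem ord_prod_eq (v : Place K F) {ι : Type*} (s : Finset ι) (f : ι → F)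
    (h : ∀ j ∈ s, f j ≠ 0) : v.ord (∏ j ∈ s, f j) = ∑ j ∈ s, v.ord (f j) := by
  classical
  induction s using Finset.induction with
  | empty => simp
  | insert a s ha ih =>
    rw [Finset.prod_insert ha, Finset.sum_insert ha,
      v.ord_mul (h a (Finset.mem_insert_self a s))
        (Finset.prod_ne_zero_iff.2 fun j hj => h j (Finset.mem_insert_of_mem hj)),
      ih fun j hj => h j (Finset.mem_insert_of_mem hj)]

theorem ord_smul_eq (v : Place K F) {c : K} (hc : c ≠ 0) (f : F) : v.ord (c • f) = v.ord f := by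
  rcases eq_or_ne f 0 with rfl | hf
  · simp
  rw [Algebra.smul_def, v.ord_mul ((map_ne_zero _).2 hc) hf, Cech.ord_const, zero_add]

/-- `f` has the value `c` at `P` -/
def HasVal (P : Place K F) (f : F) (c : K) : Prop :=
  f = algebraMap K F c ∨ 0 < P.ord (f - algebraMap K F c)

theorem HasVal.ord_nonneg {P : Place K F} {f : F} {c : K} (h : HasVal P f c) :
    0 ≤ P.ord (f - algebraMap K F c) := by
  rcases h with h | h
  · rw [h, sub_self, Place.ord_zero]
  · exact h.le

/-- the product `∏ i, (a (k i) - α i (k i))` -/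
def gk {ι : Type*} {n : ℕ} (a : ι → F) (α : Fin n → ι → K) (k : Fin n → ι) : F :=
  ∏ i, (a (k i) - algebraMap K F (α i (k i)))

/-- the divisor `∑ i, P i` -/
def ptsDiv {n : ℕ} (P : Fin n → Place K F) : Divisor K F := ∑ i, Finsupp.single (P i) (1 : ℤ)

theorem ptsDiv_apply {n : ℕ} (P : Fin n → Place K F) (Q : Place K F) :
    ptsDiv P Q = ∑ i, (Finsupp.single (P i) (1 : ℤ)) Q := by
  unfold ptsDiv
  rw [Finsupp.finsetSum_apply]

theorem single_one_nonneg (P Q : Place K F) : (0 : ℤ) ≤ (Finsupp.single P (1 : ℤ)) Q := by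
  classical
  rw [Finsupp.single_apply]
  split_ifs <;> simp

theorem ptsDiv_nonneg {n : ℕ} (P : Fin n → Place K F) (Q : Place K F) : 0 ≤ ptsDiv P Q := by
  rw [ptsDiv_apply]
  exact Finset.sum_nonneg fun i _ => single_one_nonneg (P i) Q

theorem ptsDiv_inf {n : ℕ} {P : Fin n → Place K F} {inf : Place K F} (hP : ∀ i, P i ≠ inf) :
    ptsDiv P inf = 0 := by
  classical
  rw [ptsDiv_apply]
  exact Finset.sum_eq_zero fun i _ => by rw [Finsupp.single_apply, if_neg (hP i)]

section Curve

variable {g : ℕ} (hF : IsCurveOfGenus K F g) (inf : Place K F)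
  {ι : Type*} [Fintype ι] {N₁ : ℕ} (hN : 2 * g + 1 ≤ N₁) (a : ι → F)
  (ha : Submodule.span K (Set.range a) = riemannRochSpace (Finsupp.single inf (N₁ : ℤ)))

include ha in
theorem a_mem (j : ι) : a j ∈ riemannRochSpace (Finsupp.single inf (N₁ : ℤ)) := by
  rw [← ha]
  exact Submodule.subset_span ⟨j, rfl⟩

include ha in
/-- the functions `a j - c` are regular off `inf` -/
theorem a_sub_ord_nonneg (j : ι) (c : K) {Q : Place K F} (hQ : Q ≠ inf) :
    a j - algebraMap K F c = 0 ∨ 0 ≤ Q.ord (a j - algebraMap K F c) := by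
  classical
  have h1 : a j = 0 ∨ (0 : ℤ) ≤ Q.ord (a j) := by
    have := (Cech.mem_rr_iff.1 (a_mem inf a ha j)) Q
    rwa [Finsupp.single_apply, if_neg (Ne.symm hQ), neg_zero] at this
  have h2 : -algebraMap K F c = 0 ∨ (0 : ℤ) ≤ Q.ord (-algebraMap K F c) := by
    right
    rw [Cech.ord_neg, Cech.ord_const]
  have := Cech.ord_add_ge Q h1 h2
  rwa [← sub_eq_add_neg] at this

include ha in
/-- the functions `a j - c` have a pole of order at most `N₁` at `inf` -/
theorem a_sub_ord_inf (j : ι) (c : K) :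
    a j - algebraMap K F c = 0 ∨ -(N₁ : ℤ) ≤ inf.ord (a j - algebraMap K F c) := by
  classical
  have h1 : a j = 0 ∨ -(N₁ : ℤ) ≤ inf.ord (a j) := by
    have := (Cech.mem_rr_iff.1 (a_mem inf a ha j)) inf
    rwa [Finsupp.single_apply, if_pos rfl] at this
  have h2 : -algebraMap K F c = 0 ∨ -(N₁ : ℤ) ≤ inf.ord (-algebraMap K F c) := by
    right
    rw [Cech.ord_neg, Cech.ord_const]
    omega
  have := Cech.ord_add_ge inf h1 h2
  rwa [← sub_eq_add_neg] at this

include hF hN ha in
/-- **separation of points and tangents**: for `Q ≠ inf` some `a j - a j (P)` has order exactly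
`[P = Q]` at `Q`. -/
theorem exists_index_ord_eq {P : Place K F} (hP : P ≠ inf) (α : ι → K)
    (hα : ∀ j, HasVal P (a j) (α j)) {Q : Place K F} (hQ : Q ≠ inf) :
    ∃ j, a j - algebraMap K F (α j) ≠ 0 ∧
      Q.ord (a j - algebraMap K F (α j)) = (Finsupp.single P (1 : ℤ)) Q := by
  classical
  set E : Divisor K F := Finsupp.single inf (N₁ : ℤ) - Finsupp.single P 1 with hE
  have hdegE : 2 * (g : ℤ) ≤ Divisor.degree E := by
    rw [hE, map_sub, Divisor.degree_single, Divisor.degree_single, hF.deg_eq_one, hF.deg_eq_one]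
    push_cast
    omega
  obtain ⟨s, hsE, hs0, hsQ⟩ := Fermat.Agent.S37lib.Curve.exists_ord_eq_neg hF hdegE Q
  have hEQ : E Q = -((Finsupp.single P (1 : ℤ)) Q) := by
    rw [hE, Finsupp.sub_apply, Finsupp.single_apply,
      if_neg (Ne.symm hQ), zero_sub]
  rw [hEQ, neg_neg] at hsQ
  -- `s` vanishes at `P`
  have hsP : 1 ≤ P.ord s := by
    have := (Cech.mem_rr_of_ne hs0).1 hsE P
    rw [hE, Finsupp.sub_apply, Finsupp.single_apply, Finsupp.single_apply, if_neg (Ne.symm hP),
      if_pos rfl] at this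
    omega
  -- `s` is a combination of the `a j`
  have hsN : s ∈ riemannRochSpace (Finsupp.single inf (N₁ : ℤ)) := by
    refine Cech.rr_mono (fun v => ?_) hsE
    rw [hE, Finsupp.sub_apply]
    have : (0 : ℤ) ≤ (Finsupp.single P (1 : ℤ)) v := by
      rw [Finsupp.single_apply]; split_ifs <;> simp
    omega
  rw [← ha] at hsN
  obtain ⟨c, hc⟩ := (Submodule.mem_span_range_iff_exists_fun K).1 hsN
  set r : F := ∑ j, c j • (a j - algebraMap K F (α j)) with hr
  set κ : K := ∑ j, c j * α j with hκ
  have hsr : s = r + algebraMap K F κ := by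
    rw [hr, hκ, map_sum, ← Finset.sum_add_distrib, ← hc]
    refine Finset.sum_congr rfl fun j _ => ?_
    rw [smul_sub, map_mul, Algebra.smul_def (c j) (algebraMap K F (α j))]
    ring
  have hterm : ∀ (R : Place K F) (m : ℤ),
      (∀ j, a j - algebraMap K F (α j) = 0 ∨ m ≤ R.ord (a j - algebraMap K F (α j))) →
      r = 0 ∨ m ≤ R.ord r := by
    intro R m h
    refine ord_sum_ge R _ _ fun j _ => ?_
    rcases eq_or_ne (c j) 0 with h0 | h0
    · left; rw [h0, zero_smul]
    rcases h j with h1 | h1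
    · left; rw [h1, smul_zero]
    · right; rwa [ord_smul_eq R h0]
  -- the constant term vanishes
  have hrP : r = 0 ∨ 1 ≤ P.ord r := hterm P 1 fun j => by
    rcases hα j with h | h
    · left; rw [h, sub_self]
    · right; omega
  have hκ0 : κ = 0 := by
    by_contra hne
    have h1 : algebraMap K F κ = s + -r := by rw [hsr]; ring
    have h2 : s + -r = 0 ∨ 1 ≤ P.ord (s + -r) := by
      refine Cech.ord_add_ge P (Or.inr hsP) ?_
      rcases hrP with h | h
      · left; rw [h, neg_zero]
      · right; rwa [Cech.ord_neg]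
    rw [← h1, Cech.ord_const] at h2
    rcases h2 with h2 | h2
    · exact hne ((map_eq_zero _).1 h2)
    · omega
  have hsr' : s = r := by rw [hsr, hκ0, map_zero, add_zero]
  -- conclude by contradiction
  by_contra hcon
  push Not at hcon
  have hall : ∀ j, a j - algebraMap K F (α j) = 0 ∨
      (Finsupp.single P (1 : ℤ)) Q + 1 ≤ Q.ord (a j - algebraMap K F (α j)) := by
    intro j
    by_cases h0 : a j - algebraMap K F (α j) = 0
    · exact Or.inl h0
    right
    have hne := hcon j h0
    have hge : (Finsupp.single P (1 : ℤ)) Q ≤ Q.ord (a j - algebraMap K F (α j)) := by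
      rw [Finsupp.single_apply]
      split_ifs with hPQ
      · subst hPQ
        rcases hα j with h | h
        · exact absurd (by rw [h, sub_self]) h0
        · omega
      · exact (a_sub_ord_nonneg inf a ha j (α j) hQ).resolve_left h0
    omega
  have := hterm Q _ hall
  rw [← hsr'] at this
  rcases this with h | h
  · exact hs0 h
  · omega

variable {n : ℕ} (P : Fin n → Place K F) (hP : ∀ i, P i ≠ inf) (α : Fin n → ι → K)
  (hα : ∀ i j, HasVal (P i) (a j) (α i j))

include ha hα in
/-- every `gk k` vanishes on `D = ∑ P i` -/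
theorem gk_ord_ge (k : Fin n → ι) {Q : Place K F} (hQ : Q ≠ inf) :
    gk a α k = 0 ∨ ptsDiv P Q ≤ Q.ord (gk a α k) := by
  classical
  by_cases h0 : gk a α k = 0
  · exact Or.inl h0
  right
  have hne : ∀ i ∈ Finset.univ, a (k i) - algebraMap K F (α i (k i)) ≠ 0 := by
    intro i _
    exact Finset.prod_ne_zero_iff.1 h0 i (Finset.mem_univ i)
  unfold gk
  rw [ord_prod_eq Q _ _ hne, ptsDiv_apply]
  refine Finset.sum_le_sum fun i _ => ?_
  rw [Finsupp.single_apply]
  split_ifs with hPQ
  · subst hPQ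
    rcases hα i (k i) with h | h
    · exact absurd (by rw [h, sub_self]) (hne i (Finset.mem_univ i))
    · omega
  · exact (a_sub_ord_nonneg inf a ha (k i) _ hQ).resolve_left (hne i (Finset.mem_univ i))

include ha in
/-- every `gk k` has a pole of order at most `n N₁` at `inf` -/
theorem gk_ord_inf (k : Fin n → ι) :
    gk a α k = 0 ∨ -((n : ℤ) * N₁) ≤ inf.ord (gk a α k) := by
  by_cases h0 : gk a α k = 0
  · exact Or.inl h0
  right
  have hne : ∀ i ∈ Finset.univ, a (k i) - algebraMap K F (α i (k i)) ≠ 0 := by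
    intro i _
    exact Finset.prod_ne_zero_iff.1 h0 i (Finset.mem_univ i)
  unfold gk
  rw [ord_prod_eq inf _ _ hne]
  have : ∑ _i : Fin n, (-(N₁ : ℤ)) ≤ ∑ i, inf.ord (a (k i) - algebraMap K F (α i (k i))) :=
    Finset.sum_le_sum fun i _ =>
      (a_sub_ord_inf inf a ha (k i) _).resolve_left (hne i (Finset.mem_univ i))
  rw [Finset.sum_const, Finset.card_univ, Fintype.card_fin, nsmul_eq_mul] at this
  linarith

include hF hN ha hP hα in
/-- for `Q ≠ inf` some `gk k ≠ 0` has order exactly `D Q` at `Q` -/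
theorem exists_gk_ord_eq {Q : Place K F} (hQ : Q ≠ inf) :
    ∃ k : Fin n → ι, gk a α k ≠ 0 ∧ Q.ord (gk a α k) = ptsDiv P Q := by
  choose k hk0 hk using fun i =>
    exists_index_ord_eq hF inf hN a ha (hP i) (α i) (hα i) hQ
  refine ⟨k, ?_, ?_⟩
  · unfold gk
    exact Finset.prod_ne_zero_iff.2 fun i _ => hk0 i
  · unfold gk
    rw [ord_prod_eq Q _ _ fun i _ => hk0 i, ptsDiv_apply]
    exact Finset.sum_congr rfl fun i _ => hk i

include hF hN ha hP hα in
/-- **the KEY EQUIVALENCE.** -/
theorem key_equiv {u : F} (hu : u ≠ 0) (hu_ord : ∀ Q : Place K F, Q ≠ inf → ptsDiv P Q ≤ Q.ord u)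
    (e : ℤ) (φ : F) :
    φ ∈ riemannRochSpace (ptsDiv P - Finsupp.single inf e) ↔
      u * φ ∈ riemannRochSpace (Finsupp.single inf (-inf.ord u - e)) ∧
      ∀ k : Fin n → ι,
        φ * gk a α k ∈ riemannRochSpace (Finsupp.single inf ((n : ℤ) * N₁ - e)) := by
  classical
  rcases eq_or_ne φ 0 with rfl | hφ
  · simp
  have hDinf : ptsDiv P inf = 0 := ptsDiv_inf hP
  constructor
  · intro hmem
    rw [Cech.mem_rr_of_ne hφ] at hmem
    have hφQ : ∀ Q : Place K F, Q ≠ inf → -ptsDiv P Q ≤ Q.ord φ := by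
      intro Q hQ
      have := hmem Q
      rwa [Finsupp.sub_apply, Finsupp.single_apply, if_neg (Ne.symm hQ), sub_zero] at this
    have hφinf : e ≤ inf.ord φ := by
      have := hmem inf
      rw [Finsupp.sub_apply, Finsupp.single_apply, if_pos rfl, hDinf] at this
      omega
    refine ⟨?_, fun k => ?_⟩
    · rw [Cech.mem_rr_of_ne (mul_ne_zero hu hφ)]
      intro Q
      rw [Q.ord_mul hu hφ, Finsupp.single_apply]
      split_ifs with hQ
      · subst hQ
        omega
      · have h1 := hu_ord Q (Ne.symm hQ)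
        have h2 := hφQ Q (Ne.symm hQ)
        omega
    · rcases eq_or_ne (gk a α k) 0 with h0 | h0
      · rw [h0, mul_zero]
        exact Submodule.zero_mem _
      rw [Cech.mem_rr_of_ne (mul_ne_zero hφ h0)]
      intro Q
      rw [Q.ord_mul hφ h0, Finsupp.single_apply]
      split_ifs with hQ
      · subst hQ
        have := (gk_ord_inf inf a ha α k).resolve_left h0
        omega
      · have h1 := (gk_ord_ge inf a ha P α hα k (Ne.symm hQ)).resolve_left h0
        have h2 := hφQ Q (Ne.symm hQ)
        omega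
  · rintro ⟨hA, hB⟩
    rw [Cech.mem_rr_of_ne hφ]
    intro Q
    rw [Finsupp.sub_apply, Finsupp.single_apply]
    split_ifs with hQ
    · subst hQ
      rw [Cech.mem_rr_of_ne (mul_ne_zero hu hφ)] at hA
      have := hA inf
      rw [inf.ord_mul hu hφ, Finsupp.single_apply, if_pos rfl] at this
      rw [hDinf]
      omega
    · obtain ⟨k, hk0, hk⟩ := exists_gk_ord_eq hF inf hN a ha P hP α hα (Ne.symm hQ)
      have := hB k
      rw [Cech.mem_rr_of_ne (mul_ne_zero hφ hk0)] at this
      have := this Q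
      rw [Q.ord_mul hφ hk0, Finsupp.single_apply, if_neg hQ, hk] at this
      omega

end Curve

/-! ### the solution line -/

section Line

variable (inf : Place K F) {D D' : Divisor K F} {e : ℤ} {f₀ : F}

/-- `div f₀ = D' - D + e·inf` with `D' ≥ 0` puts `f₀` in `L(D - e·inf)` -/
theorem mem_rr_of_div (hD' : ∀ v, 0 ≤ D' v) (hf₀ : f₀ ≠ 0)
    (hdiv : ∀ v : Place K F, v.ord f₀ = D' v - D v + (Finsupp.single inf e) v) :
    f₀ ∈ riemannRochSpace (D - Finsupp.single inf e) := by
  rw [Cech.mem_rr_of_ne hf₀]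
  intro v
  rw [hdiv v, Finsupp.sub_apply]
  have := hD' v
  omega

/-- if `div f₀ = D' - D + e·inf` and `L(D') = K`, then `L(D - e·inf) = K f₀` -/
theorem eq_smul_of_mem_rr (hf₀ : f₀ ≠ 0)
    (hdiv : ∀ v : Place K F, v.ord f₀ = D' v - D v + (Finsupp.single inf e) v)
    (hconst : ∀ f ∈ riemannRochSpace D', ∃ c : K, f = algebraMap K F c) {φ : F}
    (hφ : φ ∈ riemannRochSpace (D - Finsupp.single inf e)) : ∃ c : K, φ = c • f₀ := by
  rcases eq_or_ne φ 0 with rfl | hφ0
  · exact ⟨0, by rw [zero_smul]⟩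
  have hq : φ * f₀⁻¹ ∈ riemannRochSpace D' := by
    rw [Cech.mem_rr_of_ne (mul_ne_zero hφ0 (inv_ne_zero hf₀))]
    intro v
    rw [v.ord_mul hφ0 (inv_ne_zero hf₀), v.ord_inv, hdiv v]
    have := (Cech.mem_rr_of_ne hφ0).1 hφ v
    rw [Finsupp.sub_apply] at this
    omega
  obtain ⟨c, hc⟩ := hconst _ hq
  refine ⟨c, ?_⟩
  rw [Algebra.smul_def, ← hc, mul_assoc, inv_mul_cancel₀ hf₀, mul_one]

/-- `u f₀` vanishes on `D'` off `inf` when `u` vanishes on `D` -/
theorem le_ord_mul_of_div (hf₀ : f₀ ≠ 0)
    (hdiv : ∀ v : Place K F, v.ord f₀ = D' v - D v + (Finsupp.single inf e) v) {u : F}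
    (hu : u ≠ 0) {Q : Place K F} (hQ : Q ≠ inf) (hu_ord : D Q ≤ Q.ord u) :
    D' Q ≤ Q.ord (u * f₀) := by
  classical
  rw [Q.ord_mul hu hf₀, hdiv Q, Finsupp.single_apply, if_neg (Ne.symm hQ)]
  omega

end Line

/-! ### the generator lemma and the tuple form (as requested by the RED assembly) -/

section Generator

variable {g : ℕ} (hF : IsCurveOfGenus K F g) (inf : Place K F)
include hF

/-- **the generator of the solution line**: if `D' - (deg D')·inf ~ D - (deg D)·inf`, `D' ≥ 0` and
`ℓ(D') = 1`, then `deg D' ≤ g`, there is `φ₀` with `div φ₀ = D' - D + (deg D - deg D')·inf`, and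
`L(D - (deg D - deg D')·inf) = K φ₀`. -/
theorem exists_generator (D D' : Divisor K F) (hD' : ∀ P, 0 ≤ D' P)
    (hprin : (D' - Divisor.degree D' • Finsupp.single inf (1 : ℤ)) -
      (D - Divisor.degree D • Finsupp.single inf (1 : ℤ)) ∈ Divisor.principal (K := K) (F := F))
    (h1 : Module.finrank K (riemannRochSpace D') = 1) :
    Divisor.degree D' ≤ g ∧ ∃ φ₀ : F, φ₀ ≠ 0 ∧
      (∀ P : Place K F, P.ord φ₀ = D' P - D P +
        (Divisor.degree D - Divisor.degree D') * (Finsupp.single inf (1 : ℤ)) P) ∧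
      ∀ φ ∈ riemannRochSpace
        (D - (Divisor.degree D - Divisor.degree D') • Finsupp.single inf (1 : ℤ)),
        ∃ c : K, φ = c • φ₀ := by
  classical
  refine ⟨?_, ?_⟩
  · have := hF.riemann_le D'
    rw [h1] at this
    push_cast at this
    omega
  obtain ⟨f, hf0, hf⟩ := hprin
  have hdiv : ∀ v : Place K F, v.ord f = D' v - D v +
      (Finsupp.single inf (Divisor.degree D - Divisor.degree D')) v := by
    intro v
    rw [← hf v]
    simp only [Finsupp.sub_apply, Finsupp.smul_apply, smul_eq_mul, Finsupp.single_apply]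
    split_ifs <;> ring
  have hsm : (Divisor.degree D - Divisor.degree D') • Finsupp.single inf (1 : ℤ) =
      Finsupp.single inf (Divisor.degree D - Divisor.degree D') := by
    rw [Finsupp.smul_single, smul_eq_mul, mul_one]
  -- `L(D') = K`
  have hfin := hF.finiteDimensional D'
  have hbot : (⊥ : Subalgebra K F).toSubmodule ≤ riemannRochSpace D' := by
    rw [← hF.riemannRochSpace_zero]
    exact Cech.rr_mono fun v => by simpa using hD' v
  have heq : (⊥ : Subalgebra K F).toSubmodule = riemannRochSpace D' := by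
    refine Submodule.eq_of_le_of_finrank_eq hbot ?_
    rw [h1]
    exact Subalgebra.finrank_bot
  have hconst : ∀ f ∈ riemannRochSpace D', ∃ c : K, f = algebraMap K F c := by
    intro f hf
    rw [← heq] at hf
    obtain ⟨c, hc⟩ := Algebra.mem_bot.1 hf
    exact ⟨c, hc.symm⟩
  refine ⟨f, hf0, fun P => ?_, fun φ hφ => ?_⟩
  · rw [hdiv P, Finsupp.single_apply, Finsupp.single_apply]
    split_ifs <;> ring
  · rw [hsm] at hφ
    exact eq_smul_of_mem_rr inf hf0 hdiv hconst hφ

omit hF in
/-- **the tuple form** of an effective divisor without `inf` -/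
theorem exists_pts_eq {D : Divisor K F} (hD : ∀ P, 0 ≤ D P) (hinf : D inf = 0) :
    ∃ (n : ℕ) (P : Fin n → Place K F), (∀ i, P i ≠ inf) ∧ D = ptsDiv P := by
  classical
  -- a list of points first
  have key : ∀ D : Divisor K F, (∀ P, 0 ≤ D P) → ∃ l : List (Place K F),
      (l.map fun P => Finsupp.single P (1 : ℤ)).sum = D ∧ ∀ P ∈ l, D P ≠ 0 := by
    intro D
    induction D using Finsupp.induction with
    | zero => exact fun _ => ⟨[], by simp, by simp⟩
    | single_add a b f ha hb ih =>
      intro hnn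
      have hfa : f a = 0 := Finsupp.notMem_support_iff.1 ha
      have hb0 : 0 ≤ b := by
        have := hnn a
        rwa [Finsupp.add_apply, Finsupp.single_eq_same, hfa, add_zero] at this
      have hfnn : ∀ P, 0 ≤ f P := by
        intro P
        by_cases hPa : P = a
        · rw [hPa, hfa]
        · have := hnn P
          rwa [Finsupp.add_apply, Finsupp.single_eq_of_ne hPa, zero_add] at this
      obtain ⟨l, hl, hl0⟩ := ih hfnn
      refine ⟨List.replicate b.toNat a ++ l, ?_, ?_⟩
      · rw [List.map_append, List.sum_append, hl, List.map_replicate, List.sum_replicate,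
          Finsupp.smul_single, nsmul_eq_mul, mul_one, Int.toNat_of_nonneg hb0]
      · intro P hP
        rw [List.mem_append] at hP
        rcases hP with hP | hP
        · rw [List.eq_of_mem_replicate hP, Finsupp.add_apply, Finsupp.single_eq_same, hfa,
            add_zero]
          exact hb
        · have hPa : P ≠ a := by
            rintro rfl
            exact hl0 P hP hfa
          rw [Finsupp.add_apply, Finsupp.single_eq_of_ne hPa, zero_add]
          exact hl0 P hP
  obtain ⟨l, hl, hl0⟩ := key D hD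
  refine ⟨l.length, fun i => l.get i, fun i => ?_, ?_⟩
  · intro h
    have h' : l.get i = inf := h
    exact hl0 _ (List.get_mem l i) (by rw [h']; exact hinf)
  · unfold ptsDiv
    rw [← hl, ← List.sum_ofFn]
    congr 1
    have h2 : List.map (fun P => Finsupp.single P (1 : ℤ)) (List.ofFn l.get) =
        List.ofFn fun i => Finsupp.single (l.get i) (1 : ℤ) := by
      rw [List.map_ofFn]
      rfl
    rw [← h2, List.ofFn_get]

/-- the number of points is the degree -/
theorem degree_ptsDiv {n : ℕ} (P : Fin n → Place K F) : Divisor.degree (ptsDiv P) = n := by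
  unfold ptsDiv
  rw [map_sum]
  simp [Divisor.degree_single, hF.deg_eq_one]

end Generator

end Fermat.Agent.S17lib.RedLin
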