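/-
S17lib / RedLin / Cramer  (helper3) — Project G (S17), block RED, the pure linear algebra.

* `exists_minor_vector` : if the kernel of a matrix `M` (rows `R`, columns `Fin (m+1)`) is the LINE
  spanned by `x ≠ 0`, then for SOME choice `e : Fin m → R` of `m` rows the vector of signed maximal
  minors `c j = (-1)^j det (M.submatrix e j.succAbove)` is a nonzero multiple of `x`.
-/
import Mathlib

set_option autoImplicit false

namespace Fermat.Agent.S17lib.RedLin

open Matrix Module

variable {K : Type*} [Field K]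

/-- **Cramer for a kernel line.** -/
theorem exists_minor_vector {R : Type*} [Finite R] {m : ℕ} (M : Matrix R (Fin (m + 1)) K)
    (x : Fin (m + 1) → K) (hx : x ≠ 0) (hMx : M *ᵥ x = 0)
    (hker : ∀ z : Fin (m + 1) → K, M *ᵥ z = 0 → ∃ μ : K, z = μ • x) :
    ∃ (e : Fin m → R) (lam : K), lam ≠ 0 ∧
      ∀ j : Fin (m + 1), lam * x j = (-1) ^ (j : ℕ) * (M.submatrix e j.succAbove).det := by
  classical
  cases nonempty_fintype R
  -- the rank of `M` is `m`
  have hkerM : LinearMap.ker M.mulVecLin = Submodule.span K {x} := by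
    ext z
    rw [LinearMap.mem_ker, Matrix.mulVecLin_apply, Submodule.mem_span_singleton]
    constructor
    · intro hz
      obtain ⟨μ, rfl⟩ := hker z hz
      exact ⟨μ, rfl⟩
    · rintro ⟨μ, rfl⟩
      rw [Matrix.mulVec_smul, hMx, smul_zero]
  have hrank : M.rank = m := by
    have h := LinearMap.finrank_range_add_finrank_ker M.mulVecLin
    rw [hkerM, finrank_span_singleton hx, Module.finrank_fin_fun] at h
    unfold Matrix.rank
    omega
  rw [Matrix.rank_eq_finrank_span_row] at hrank
  obtain ⟨f, hf, hspan, -⟩ := Submodule.exists_fun_fin_finrank_span_eq K (Set.range M.row)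
  choose e' he' using hf
  -- the chosen rows
  let e : Fin m → R := fun i => e' (Fin.cast hrank.symm i)
  -- a vector orthogonal to the chosen rows is in the kernel
  have horth : ∀ z : Fin (m + 1) → K, (∀ i, M (e i) ⬝ᵥ z = 0) → M *ᵥ z = 0 := by
    intro z hz
    have hle : Submodule.span K (Set.range M.row) ≤
        LinearMap.ker ((LinearMap.flip (dotProductBilin K K)) z : (Fin (m + 1) → K) →ₗ[K] K) := by
      rw [← hspan, Submodule.span_le]
      rintro _ ⟨i, rfl⟩
      rw [SetLike.mem_coe, LinearMap.mem_ker]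
      have h1 := hz (Fin.cast hrank i)
      have h2 : e (Fin.cast hrank i) = e' i := by
        show e' (Fin.cast hrank.symm (Fin.cast hrank i)) = e' i
        congr 1
      rw [h2] at h1
      have h3 : M (e' i) = f i := he' i
      rw [h3] at h1
      simpa using h1
    funext ρ
    have : M.row ρ ∈ Submodule.span K (Set.range M.row) := Submodule.subset_span ⟨ρ, rfl⟩
    have := hle this
    rw [LinearMap.mem_ker] at this
    have h4 : M.row ρ ⬝ᵥ z = 0 := by simpa using this
    exact h4
  -- a coordinate where `x` does not vanish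
  obtain ⟨j₀, hj₀⟩ : ∃ j₀, x j₀ ≠ 0 := by
    by_contra h
    push Not at h
    exact hx (funext h)
  let y : Fin (m + 1) → K := Pi.single j₀ (x j₀)⁻¹
  have hyx : y ⬝ᵥ x = 1 := by
    simp [y, inv_mul_cancel₀ hj₀]
  -- the square matrix
  let S : Matrix (Fin (m + 1)) (Fin (m + 1)) K := Matrix.of (Fin.cons y fun i => M (e i))
  have hS0 : ∀ z : Fin (m + 1) → K, (S *ᵥ z) 0 = y ⬝ᵥ z := fun z => rfl
  have hSs : ∀ (z : Fin (m + 1) → K) (i : Fin m), (S *ᵥ z) i.succ = M (e i) ⬝ᵥ z := fun z i => rfl
  have hSx : S *ᵥ x = Pi.single 0 1 := by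
    funext i
    refine Fin.cases ?_ (fun i => ?_) i
    · rw [hS0, hyx, Pi.single_eq_same]
    · rw [hSs, Pi.single_eq_of_ne (Fin.succ_ne_zero i)]
      have := congrFun hMx (e i)
      simpa [Matrix.mulVec] using this
  have hdet : S.det ≠ 0 := by
    intro h0
    obtain ⟨z, hz0, hz⟩ := Matrix.exists_mulVec_eq_zero_iff.2 h0
    have h1 : M *ᵥ z = 0 := horth z fun i => by
      have := congrFun hz i.succ
      rwa [hSs] at this
    obtain ⟨μ, rfl⟩ := hker z h1
    have h2 := congrFun hz 0
    rw [hS0, dotProduct_smul, hyx, smul_eq_mul, mul_one] at h2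
    apply hz0
    rw [show μ = 0 from h2, zero_smul]
  refine ⟨e, S.det, hdet, fun j => ?_⟩
  have h1 : S.adjugate *ᵥ (S *ᵥ x) = S.det • x := by
    rw [Matrix.mulVec_mulVec, Matrix.adjugate_mul, Matrix.smul_mulVec, Matrix.one_mulVec]
  rw [hSx] at h1
  have h2 := congrFun h1 j
  rw [Matrix.mulVec_single_one] at h2
  rw [Pi.smul_apply, smul_eq_mul] at h2
  rw [← h2]
  show S.adjugate j 0 = _
  rw [Matrix.adjugate_fin_succ_eq_det_submatrix]
  congr 1
  · simp

end Fermat.Agent.S17lib.RedLin
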